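/-
S36, block [PTS] (helper11): **classification of the closed points of the special fibre at level
`q² M₀`** by the vertical valuations `V20, V11, V02` centred at them.

Pure commutative algebra (Mathlib + `P3G/Krull.vCentre`), hypothesis-driven on

* the charts `S₁ ⊆ F₁` (level `q M₀`), `S₂ ⊆ F₂` (level `q² M₀`) and the two degeneracy maps
  `a, b : S₁ → S₂` (`α₂`, `β₂`), `φa, φb : F₁ → F₂`;
* the vertical valuation rings `U 0 = V10`, `U 1 = V01` of `F₁` and `V 0 = V20`, `V 1 = V11`,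
  `V 2 = V02` of `F₂`, with the **contraction table**
  `α : V20, V11 ↦ V10, V02 ↦ V01`,  `β : V20 ↦ V10, V11, V02 ↦ V01`;
* `hsat` : `⋂ centres ⊆ rad (ϖ S₂)` (the `V i` are all the vertical valuations);
* `hTα`, `hTβ` (block [R2]) : over a crossing point of level `q M₀` (via `α`, resp. via `β`) all
  three components pass through the point.

Results, for a prime `𝔪 ∋ ϖ` of `S₂` (`T(𝔪) := {i | centre (V i) ≤ 𝔪}`):
`exists_centre_le` (`T ≠ ∅`), `vCentre_comap_a/_b` (contraction table for the centres),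
`crossing_a_of_two`, `crossing_b_of_two` (two components through `𝔪` ⇒ its image under `α` or `β` is
a crossing point), **`classify`** : `OnlyOne 0 ∨ OnlyOne 1 ∨ OnlyOne 2 ∨ Triple`, and
**`triple_iff_a`, `triple_iff_b`** : `Triple 𝔪 ↔ 𝔪` lies over a crossing point via `α` (via `β`).
-/
import Mathlib
import Fermat.Agent.P3G.Krull

set_option autoImplicit false
set_option linter.unusedSectionVars false
set_option linter.unusedVariables false

namespace Fermat.Agent.S36.Points.Classify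

open Fermat.Agent.P3G.Krull

/-! ### Contraction of centres along a map of charts -/

section Comap

variable {S₁ S₂ F₁ F₂ : Type*} [CommRing S₁] [CommRing S₂] [Field F₁] [Field F₂]
  [Algebra S₁ F₁] [Algebra S₂ F₂]

/-- If `V ∩ F₁ = U` (along `φ`) then `centre V ∩ S₁ = centre U` (along `a`). -/
theorem vCentre_comap (a : S₁ →+* S₂) (φ : F₁ →+* F₂)
    (hφ : ∀ r : S₁, φ (algebraMap S₁ F₁ r) = algebraMap S₂ F₂ (a r))
    (U : ValuationSubring F₁) (hU : ∀ r : S₁, algebraMap S₁ F₁ r ∈ U)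
    (V : ValuationSubring F₂) (hV : ∀ s : S₂, algebraMap S₂ F₂ s ∈ V)
    (hUV : V.comap φ = U) :
    (vCentre V hV).comap a = vCentre U hU := by
  ext r
  rw [Ideal.mem_comap, mem_vCentre_iff, mem_vCentre_iff, ← hφ, ← hUV]
  rw [ValuationSubring.mem_nonunits_iff, ValuationSubring.mem_nonunits_iff]
  -- the valuation of `V.comap φ` is equivalent to the composite
  constructor
  · intro h
    by_contra hcon
    rw [not_lt] at hcon
    -- `x := algebraMap r`; `φ x ∈ 𝔪_V` but `x` is a unit of `V.comap φ` or not in it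
    set x := algebraMap S₁ F₁ r with hx
    have hxU : x ∈ V.comap φ := by rw [hUV]; exact hU r
    have hunit : (V.comap φ).valuation x = 1 :=
      le_antisymm (((V.comap φ).valuation_le_one_iff x).2 hxU) hcon
    have hx0 : x ≠ 0 := by
      rintro h0
      rw [h0, map_zero] at hunit
      exact zero_ne_one hunit
    have hinv : x⁻¹ ∈ V.comap φ := by
      rw [← (V.comap φ).valuation_le_one_iff, map_inv₀, hunit, inv_one]
    have hinv' : (φ x)⁻¹ ∈ V := by
      have := hinv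
      rw [ValuationSubring.mem_comap, map_inv₀] at this
      exact this
    have h1 : V.valuation ((φ x)⁻¹) ≤ 1 := (V.valuation_le_one_iff _).2 hinv'
    rw [map_inv₀] at h1
    have hφx0 : V.valuation (φ x) ≠ 0 := by
      rw [Valuation.ne_zero_iff]
      exact (map_ne_zero φ).2 hx0
    have h2 : 1 ≤ V.valuation (φ x) := by
      have hpos : 0 < V.valuation (φ x) := zero_lt_iff.mpr hφx0
      exact (inv_le_one₀ hpos).mp h1
    exact absurd h (not_lt.mpr h2)
  · intro h
    by_contra hcon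
    rw [not_lt] at hcon
    set x := algebraMap S₁ F₁ r with hx
    have hφxV : φ x ∈ V := by rw [hx, hφ]; exact hV _
    have hunit : V.valuation (φ x) = 1 :=
      le_antisymm ((V.valuation_le_one_iff _).2 hφxV) hcon
    have hφx0 : φ x ≠ 0 := by
      intro h0
      rw [h0, map_zero] at hunit
      exact zero_ne_one hunit
    have hx0 : x ≠ 0 := fun h0 => hφx0 (by rw [h0, map_zero])
    have hinvV : (φ x)⁻¹ ∈ V := by
      rw [← V.valuation_le_one_iff, map_inv₀, hunit, inv_one]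
    have hinv : x⁻¹ ∈ V.comap φ := by
      rw [ValuationSubring.mem_comap, map_inv₀]
      exact hinvV
    have h1 : (V.comap φ).valuation x⁻¹ ≤ 1 := ((V.comap φ).valuation_le_one_iff _).2 hinv
    rw [map_inv₀] at h1
    have hpos : 0 < (V.comap φ).valuation x := by
      rw [Valuation.pos_iff]; exact hx0
    have h2 : 1 ≤ (V.comap φ).valuation x := (inv_le_one₀ hpos).mp h1
    exact absurd h (not_lt.mpr h2)

end Comap

/-! ### The classification -/

section Classify

variable {S₁ S₂ F₁ F₂ : Type*} [CommRing S₁] [CommRing S₂] [Field F₁] [Field F₂]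
  [Algebra S₁ F₁] [Algebra S₂ F₂]
  (a b : S₁ →+* S₂) (φa φb : F₁ →+* F₂)
  (U : Fin 2 → ValuationSubring F₁) (hU : ∀ k (r : S₁), algebraMap S₁ F₁ r ∈ U k)
  (V : Fin 3 → ValuationSubring F₂) (hV : ∀ i (s : S₂), algebraMap S₂ F₂ s ∈ V i)

/-- index of the component of level `q M₀` under `α`: `20, 11 ↦ 10`, `02 ↦ 01` -/
def tA : Fin 3 → Fin 2 := ![0, 0, 1]

/-- index of the component of level `q M₀` under `β`: `20 ↦ 10`, `11, 02 ↦ 01` -/
def tB : Fin 3 → Fin 2 := ![0, 1, 1]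

/-- exactly the component `i` passes through `𝔪` -/
def OnlyOne (i : Fin 3) (𝔪 : Ideal S₂) : Prop :=
  vCentre (V i) (hV i) ≤ 𝔪 ∧ ∀ j, j ≠ i → ¬ vCentre (V j) (hV j) ≤ 𝔪

/-- all three components pass through `𝔪` -/
def Triple (𝔪 : Ideal S₂) : Prop := ∀ i, vCentre (V i) (hV i) ≤ 𝔪

/-- `𝔫` is a crossing point of level `q M₀`: both components pass through it -/
def Crossing (𝔫 : Ideal S₁) : Prop := ∀ k, vCentre (U k) (hU k) ≤ 𝔫

theorem crossing_iff (𝔫 : Ideal S₁) :
    Crossing U hU 𝔫 ↔ vCentre (U 0) (hU 0) ⊔ vCentre (U 1) (hU 1) ≤ 𝔫 := by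
  unfold Crossing
  rw [sup_le_iff, Fin.forall_fin_two]

/-- **`T(𝔪) ≠ ∅`**: a prime containing `ϖ` contains one of the three centres. -/
theorem exists_centre_le (ϖ : S₂)
    (hsat : ∀ s : S₂, (∀ i, algebraMap S₂ F₂ s ∈ (V i).nonunits) → ∃ E : ℕ, ϖ ∣ s ^ E)
    (𝔪 : Ideal S₂) [h𝔪 : 𝔪.IsPrime] (hϖ : ϖ ∈ 𝔪) : ∃ i, vCentre (V i) (hV i) ≤ 𝔪 := by
  classical
  have hle : (Finset.univ : Finset (Fin 3)).inf (fun i => vCentre (V i) (hV i)) ≤ 𝔪 := by
    intro s hs
    rw [Finset.inf_eq_iInf, Submodule.mem_iInf] at hs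
    have hs' : ∀ i, algebraMap S₂ F₂ s ∈ (V i).nonunits := by
      intro i
      have := hs i
      rw [Submodule.mem_iInf] at this
      exact (mem_vCentre_iff (V i) (hV i)).1 (this (Finset.mem_univ i))
    obtain ⟨E, hE⟩ := hsat s hs'
    obtain ⟨r, hr⟩ := hE
    have : s ^ E ∈ 𝔪 := by rw [hr]; exact 𝔪.mul_mem_right _ hϖ
    exact h𝔪.mem_of_pow_mem E this
  obtain ⟨i, -, hi⟩ := (Ideal.IsPrime.inf_le' h𝔪).1 hle
  exact ⟨i, hi⟩

variable (hφa : ∀ r : S₁, φa (algebraMap S₁ F₁ r) = algebraMap S₂ F₂ (a r))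
  (hφb : ∀ r : S₁, φb (algebraMap S₁ F₁ r) = algebraMap S₂ F₂ (b r))
  (hA : ∀ i, (V i).comap φa = U (tA i)) (hB : ∀ i, (V i).comap φb = U (tB i))

include hφa hA in
/-- contraction table of the centres along `α` -/
theorem vCentre_comap_a (i : Fin 3) :
    (vCentre (V i) (hV i)).comap a = vCentre (U (tA i)) (hU (tA i)) :=
  vCentre_comap a φa hφa (U (tA i)) (hU (tA i)) (V i) (hV i) (hA i)

include hφb hB in
/-- contraction table of the centres along `β` -/
theorem vCentre_comap_b (i : Fin 3) :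
    (vCentre (V i) (hV i)).comap b = vCentre (U (tB i)) (hU (tB i)) :=
  vCentre_comap b φb hφb (U (tB i)) (hU (tB i)) (V i) (hV i) (hB i)

include hφa hA in
/-- a component through `𝔪` gives a component through `α⁻¹ 𝔪` -/
theorem le_comap_a {𝔪 : Ideal S₂} {i : Fin 3} (h : vCentre (V i) (hV i) ≤ 𝔪) :
    vCentre (U (tA i)) (hU (tA i)) ≤ 𝔪.comap a := by
  rw [← vCentre_comap_a a φa U hU V hV hφa hA i]
  exact Ideal.comap_mono h

include hφb hB in
theorem le_comap_b {𝔪 : Ideal S₂} {i : Fin 3} (h : vCentre (V i) (hV i) ≤ 𝔪) :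
    vCentre (U (tB i)) (hU (tB i)) ≤ 𝔪.comap b := by
  rw [← vCentre_comap_b b φb U hU V hV hφb hB i]
  exact Ideal.comap_mono h

theorem tA_zero : tA 0 = 0 := rfl
theorem tA_one : tA 1 = 0 := rfl
theorem tA_two : tA 2 = 1 := rfl
theorem tB_zero : tB 0 = 0 := rfl
theorem tB_one : tB 1 = 1 := rfl
theorem tB_two : tB 2 = 1 := rfl

include hφa hA in
/-- `le_comap_a` with the index of level `q M₀` made explicit -/
theorem le_comap_a' {𝔪 : Ideal S₂} {i : Fin 3} (k : Fin 2) (hk : tA i = k)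
    (h : vCentre (V i) (hV i) ≤ 𝔪) : vCentre (U k) (hU k) ≤ 𝔪.comap a := by
  subst hk
  exact le_comap_a a φa U hU V hV hφa hA h

include hφb hB in
/-- `le_comap_b` with the index of level `q M₀` made explicit -/
theorem le_comap_b' {𝔪 : Ideal S₂} {i : Fin 3} (k : Fin 2) (hk : tB i = k)
    (h : vCentre (V i) (hV i) ≤ 𝔪) : vCentre (U k) (hU k) ≤ 𝔪.comap b := by
  subst hk
  exact le_comap_b b φb U hU V hV hφb hB h

include hφa hA in
/-- `C02` and one of `C20`, `C11` through `𝔪` ⇒ `α⁻¹ 𝔪` is a crossing point. -/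
theorem crossing_a_of_two {𝔪 : Ideal S₂} (h2 : vCentre (V 2) (hV 2) ≤ 𝔪)
    (h01 : vCentre (V 0) (hV 0) ≤ 𝔪 ∨ vCentre (V 1) (hV 1) ≤ 𝔪) :
    Crossing U hU (𝔪.comap a) := by
  unfold Crossing
  rw [Fin.forall_fin_two]
  refine ⟨?_, le_comap_a' a φa U hU V hV hφa hA 1 tA_two h2⟩
  rcases h01 with h | h
  · exact le_comap_a' a φa U hU V hV hφa hA 0 tA_zero h
  · exact le_comap_a' a φa U hU V hV hφa hA 0 tA_one h

include hφb hB in
/-- `C20` and one of `C11`, `C02` through `𝔪` ⇒ `β⁻¹ 𝔪` is a crossing point. -/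
theorem crossing_b_of_two {𝔪 : Ideal S₂} (h0 : vCentre (V 0) (hV 0) ≤ 𝔪)
    (h12 : vCentre (V 1) (hV 1) ≤ 𝔪 ∨ vCentre (V 2) (hV 2) ≤ 𝔪) :
    Crossing U hU (𝔪.comap b) := by
  unfold Crossing
  rw [Fin.forall_fin_two]
  refine ⟨le_comap_b' b φb U hU V hV hφb hB 0 tB_zero h0, ?_⟩
  rcases h12 with h | h
  · exact le_comap_b' b φb U hU V hV hφb hB 1 tB_one h
  · exact le_comap_b' b φb U hU V hV hφb hB 1 tB_two h

include hφa hA in
/-- a triple point lies over a crossing point via `α` -/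
theorem crossing_a_of_triple {𝔪 : Ideal S₂} (h : Triple V hV 𝔪) : Crossing U hU (𝔪.comap a) :=
  crossing_a_of_two a φa U hU V hV hφa hA (h 2) (Or.inl (h 0))

include hφb hB in
/-- a triple point lies over a crossing point via `β` -/
theorem crossing_b_of_triple {𝔪 : Ideal S₂} (h : Triple V hV 𝔪) : Crossing U hU (𝔪.comap b) :=
  crossing_b_of_two b φb U hU V hV hφb hB (h 0) (Or.inr (h 2))

/-- The [R2] input along `α`: over a crossing point all three components pass through the point. -/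
def TripleOver (c : S₁ →+* S₂) (𝔪 : Ideal S₂) : Prop :=
  Crossing U hU (𝔪.comap c) → Triple V hV 𝔪

include hφa hA hφb hB in
/-- **Classification of the closed points of the special fibre**: through a prime `𝔪 ∋ ϖ` passes
exactly one of the three components, or all three. -/
theorem classify (ϖ : S₂)
    (hsat : ∀ s : S₂, (∀ i, algebraMap S₂ F₂ s ∈ (V i).nonunits) → ∃ E : ℕ, ϖ ∣ s ^ E)
    (𝔪 : Ideal S₂) [h𝔪 : 𝔪.IsPrime] (hϖ : ϖ ∈ 𝔪)
    (hTa : TripleOver U hU V hV a 𝔪) (hTb : TripleOver U hU V hV b 𝔪) :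
    OnlyOne V hV 0 𝔪 ∨ OnlyOne V hV 1 𝔪 ∨ OnlyOne V hV 2 𝔪 ∨ Triple V hV 𝔪 := by
  classical
  by_cases h0 : vCentre (V 0) (hV 0) ≤ 𝔪 <;> by_cases h1 : vCentre (V 1) (hV 1) ≤ 𝔪 <;>
    by_cases h2 : vCentre (V 2) (hV 2) ≤ 𝔪
  · exact Or.inr (Or.inr (Or.inr (fun i => by fin_cases i <;> assumption)))
  · exact Or.inr (Or.inr (Or.inr
      (hTb (crossing_b_of_two b φb U hU V hV hφb hB h0 (Or.inl h1)))))
  · exact Or.inr (Or.inr (Or.inr
      (hTa (crossing_a_of_two a φa U hU V hV hφa hA h2 (Or.inl h0)))))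
  · refine Or.inl ⟨h0, fun j hj => ?_⟩
    fin_cases j
    · exact absurd rfl hj
    · exact h1
    · exact h2
  · exact Or.inr (Or.inr (Or.inr
      (hTa (crossing_a_of_two a φa U hU V hV hφa hA h2 (Or.inr h1)))))
  · refine Or.inr (Or.inl ⟨h1, fun j hj => ?_⟩)
    fin_cases j
    · exact h0
    · exact absurd rfl hj
    · exact h2
  · refine Or.inr (Or.inr (Or.inl ⟨h2, fun j hj => ?_⟩))
    fin_cases j
    · exact h0
    · exact h1
    · exact absurd rfl hj
  · obtain ⟨i, hi⟩ := exists_centre_le V hV ϖ hsat 𝔪 hϖ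
    fin_cases i
    · exact absurd hi h0
    · exact absurd hi h1
    · exact absurd hi h2

include hφa hA in
/-- **Triple points = points over the crossing points of level `q M₀` via `α`.** -/
theorem triple_iff_a (𝔪 : Ideal S₂) (hTa : TripleOver U hU V hV a 𝔪) :
    Triple V hV 𝔪 ↔ Crossing U hU (𝔪.comap a) :=
  ⟨crossing_a_of_triple a φa U hU V hV hφa hA, hTa⟩

include hφb hB in
/-- **Triple points = points over the crossing points of level `q M₀` via `β`.** -/
theorem triple_iff_b (𝔪 : Ideal S₂) (hTb : TripleOver U hU V hV b 𝔪) :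
    Triple V hV 𝔪 ↔ Crossing U hU (𝔪.comap b) :=
  ⟨crossing_b_of_triple b φb U hU V hV hφb hB, hTb⟩

include hφa hA in
/-- The [R2] input in the shape of `R2/TriplePoint.TripleHyp.le_of_comap_le`: if over a crossing
point `𝔪.comap a` every ideal of `S₂` whose contraction is `≤ 𝔪.comap a` is `≤ 𝔪`, then all three
components pass through `𝔪`. -/
theorem tripleOver_a_of_forall (𝔪 : Ideal S₂)
    (h : Crossing U hU (𝔪.comap a) → ∀ I : Ideal S₂, I.comap a ≤ 𝔪.comap a → I ≤ 𝔪) :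
    TripleOver U hU V hV a 𝔪 := by
  intro hc i
  refine h hc _ ?_
  rw [vCentre_comap_a a φa U hU V hV hφa hA i]
  exact hc (tA i)

include hφb hB in
/-- the same along `β` -/
theorem tripleOver_b_of_forall (𝔪 : Ideal S₂)
    (h : Crossing U hU (𝔪.comap b) → ∀ I : Ideal S₂, I.comap b ≤ 𝔪.comap b → I ≤ 𝔪) :
    TripleOver U hU V hV b 𝔪 := by
  intro hc i
  refine h hc _ ?_
  rw [vCentre_comap_b b φb U hU V hV hφb hB i]
  exact hc (tB i)

include hφa hA in
/-- variant with the [R2] input only for PRIME ideals (shape of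
`R2/TripleChart.TripleChartData.le_of_under_le`) -/
theorem tripleOver_a_of_forall_prime (𝔪 : Ideal S₂)
    (h : Crossing U hU (𝔪.comap a) →
      ∀ I : Ideal S₂, I.IsPrime → I.comap a ≤ 𝔪.comap a → I ≤ 𝔪) :
    TripleOver U hU V hV a 𝔪 := by
  intro hc i
  refine h hc _ (vCentre_isPrime (V i) (hV i)) ?_
  rw [vCentre_comap_a a φa U hU V hV hφa hA i]
  exact hc (tA i)

include hφb hB in
/-- the same along `β` -/
theorem tripleOver_b_of_forall_prime (𝔪 : Ideal S₂)
    (h : Crossing U hU (𝔪.comap b) →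
      ∀ I : Ideal S₂, I.IsPrime → I.comap b ≤ 𝔪.comap b → I ≤ 𝔪) :
    TripleOver U hU V hV b 𝔪 := by
  intro hc i
  refine h hc _ (vCentre_isPrime (V i) (hV i)) ?_
  rw [vCentre_comap_b b φb U hU V hV hφb hB i]
  exact hc (tB i)

/-- the saturation hypothesis of `P3G/KrullChart` (`ϖ ∣ s`) implies the one used here -/
theorem hsat_of_dvd (ϖ : S₂)
    (hsat : ∀ s : S₂, (∀ i, algebraMap S₂ F₂ s ∈ (V i).nonunits) → ϖ ∣ s) :
    ∀ s : S₂, (∀ i, algebraMap S₂ F₂ s ∈ (V i).nonunits) → ∃ E : ℕ, ϖ ∣ s ^ E :=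
  fun s hs => ⟨1, by simpa using hsat s hs⟩

/-- a prime through which a component passes contains `ϖ` -/
theorem mem_of_centre_le (ϖ : S₂) {i : Fin 3} (hϖ : algebraMap S₂ F₂ ϖ ∈ (V i).nonunits)
    {𝔪 : Ideal S₂} (h : vCentre (V i) (hV i) ≤ 𝔪) : ϖ ∈ 𝔪 :=
  h ((mem_vCentre_iff (V i) (hV i)).2 hϖ)

/-- `OnlyOne` and `Triple` exclude each other. -/
theorem not_triple_of_onlyOne {i : Fin 3} {𝔪 : Ideal S₂} (h : OnlyOne V hV i 𝔪) :
    ¬ Triple V hV 𝔪 := by
  intro ht
  fin_cases i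
  · exact h.2 1 (by decide) (ht 1)
  · exact h.2 0 (by decide) (ht 0)
  · exact h.2 0 (by decide) (ht 0)

end Classify

end Fermat.Agent.S36.Points.Classify
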