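/-
S36, block [PTS] (helper11), file 2: **the classification of closed points in the vocabulary of
`D/ChartRoots.ChartHyp`** (block [L]/[D], helper29), so that the two per-point theorems
`ChartRoots.localRoots_onlyOne` / `localRoots_triple` can be dispatched at EVERY prime `𝔫 ∋ π` of the
chart.

* `hsat_of_chartHyp` : `ChartHyp.pow` + `ChartHyp.sat` give the saturation hypothesis of
  `Points/Classify` (`⋂ centres ⊆ rad (π R)`; the special fibre is NOT reduced: `E = q - 1`);
* `exists_centre_le` : every prime `𝔫 ∋ π` of the chart contains a centre (any finite family);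
* `dispatch` : for the three valuations of level `q² M₀` with the contraction table of block [V] and
  the [R2] input `TripleOver` along `α` and along `β`:
  `(∃ i₀, centre (V i₀) ≤ 𝔫 ∧ ∀ j ≠ i₀, ¬ centre (V j) ≤ 𝔫) ∨ ∀ i, centre (V i) ≤ 𝔫`
  — verbatim the hypotheses `(i₀, hi₀, honly)` of `localRoots_onlyOne`, resp. `htriple` of
  `localRoots_triple`.
-/
import Mathlib
import Fermat.Agent.S36.Points.Classify
import Fermat.Agent.S36.D.ChartRoots

set_option autoImplicit false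
set_option linter.unusedSectionVars false
set_option linter.unusedVariables false

namespace Fermat.Agent.S36.Points.ClassifyChart

open Fermat.Agent.P3G.Krull Fermat.Agent.S36.Local.LocalRoot Fermat.Agent.S36.Local.Spread
  Fermat.Agent.S36.D.ChartRoots Fermat.Agent.S36.Points.Classify

universe u

variable {O : Type*} [CommRing O] [IsDomain O] [IsDiscreteValuationRing O]
variable {R : Type*} [CommRing R] [IsDomain R] [IsNoetherianRing R] [Algebra O R]
variable {F : Type u} [Field F] [Algebra R F] [IsFractionRing R F]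
variable {ι : Type*} [Fintype ι]
variable {V : ι → ValuationSubring F} {hV : ∀ i (r : R), algebraMap R F r ∈ V i}

/-- `vCentre` (P3G/Krull) and `centre` (S36/Local) are the same ideal. -/
theorem vCentre_eq_centre' (W : ValuationSubring F) (hW : ∀ r : R, algebraMap R F r ∈ W) :
    vCentre W hW = centre W hW := by
  ext r
  rw [mem_vCentre_iff, mem_centre]

/-- `ChartHyp.pow` + `ChartHyp.sat` ⇒ `⋂ centres ⊆ rad (π R)`. -/
theorem hsat_of_chartHyp {π : O} {E : ℕ} (H : ChartHyp V hV π E) :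
    ∀ s : R, (∀ i, algebraMap R F s ∈ (V i).nonunits) → ∃ E' : ℕ, algebraMap O R π ∣ s ^ E' := by
  intro s hs
  refine ⟨E, H.sat (s ^ E) fun i => ?_⟩
  rw [map_pow]
  exact H.pow i _ (hs i)

/-- Every prime `𝔫 ∋ π` of the chart contains the centre of one of the `V i`. -/
theorem exists_centre_le {π : O} {E : ℕ} (H : ChartHyp V hV π E)
    (𝔫 : Ideal R) [h𝔫 : 𝔫.IsPrime] (hπ : algebraMap O R π ∈ 𝔫) :
    ∃ i, centre (V i) (hV i) ≤ 𝔫 := by
  classical
  have hle : (Finset.univ : Finset ι).inf (fun i => centre (V i) (hV i)) ≤ 𝔫 := by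
    intro s hs
    rw [Finset.inf_eq_iInf, Submodule.mem_iInf] at hs
    have hs' : ∀ i, algebraMap R F s ∈ (V i).nonunits := by
      intro i
      have := hs i
      rw [Submodule.mem_iInf] at this
      exact mem_centre.1 (this (Finset.mem_univ i))
    obtain ⟨E', r, hr⟩ := hsat_of_chartHyp H s hs'
    have : s ^ E' ∈ 𝔫 := by rw [hr]; exact 𝔫.mul_mem_right _ hπ
    exact h𝔫.mem_of_pow_mem E' this
  obtain ⟨i, -, hi⟩ := (Ideal.IsPrime.inf_le' h𝔫).1 hle
  exact ⟨i, hi⟩

/-- a prime through which a component passes contains `π` -/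
theorem mem_of_centre_le {π : O} {E : ℕ} (H : ChartHyp V hV π E) {𝔫 : Ideal R} {i : ι}
    (h : centre (V i) (hV i) ≤ 𝔫) : algebraMap O R π ∈ 𝔫 :=
  h (mem_centre.2 (H.mem i))

/-- **Points through which at most one component passes** (e.g. the cusp points of the chart at
infinity, by `Cusp/Regular.cusp_only`): exactly one component passes — the `hone` hypothesis of
`Descent/LocalRootsInst.localRoots_chart_onlyOne`. `hamo` is stated with `P3G.Krull.vCentre`. -/
theorem exists_onlyOne_of_atMostOne {π : O} {E : ℕ} (H : ChartHyp V hV π E)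
    (𝔫 : Ideal R) [h𝔫 : 𝔫.IsPrime] (hπ : algebraMap O R π ∈ 𝔫)
    (hamo : ∀ i k, vCentre (V i) (hV i) ≤ 𝔫 → vCentre (V k) (hV k) ≤ 𝔫 → i = k) :
    ∃ i₀, centre (V i₀) (hV i₀) ≤ 𝔫 ∧ ∀ j, j ≠ i₀ → ¬ centre (V j) (hV j) ≤ 𝔫 := by
  obtain ⟨i₀, hi₀⟩ := exists_centre_le H 𝔫 hπ
  refine ⟨i₀, hi₀, fun j hj hle => hj ?_⟩
  refine hamo j i₀ ?_ ?_
  · rw [vCentre_eq_centre']; exact hle
  · rw [vCentre_eq_centre']; exact hi₀

/-- the same with `hamo` stated with `LocalRoot.centre` -/
theorem exists_onlyOne_of_atMostOne' {π : O} {E : ℕ} (H : ChartHyp V hV π E)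
    (𝔫 : Ideal R) [h𝔫 : 𝔫.IsPrime] (hπ : algebraMap O R π ∈ 𝔫)
    (hamo : ∀ i k, centre (V i) (hV i) ≤ 𝔫 → centre (V k) (hV k) ≤ 𝔫 → i = k) :
    ∃ i₀, centre (V i₀) (hV i₀) ≤ 𝔫 ∧ ∀ j, j ≠ i₀ → ¬ centre (V j) (hV j) ≤ 𝔫 := by
  obtain ⟨i₀, hi₀⟩ := exists_centre_le H 𝔫 hπ
  exact ⟨i₀, hi₀, fun j hj hle => hj (hamo j i₀ hle hi₀)⟩

section Three

variable {S₁ F₁ : Type*} [CommRing S₁] [Field F₁] [Algebra S₁ F₁]
  {V : Fin 3 → ValuationSubring F} {hV : ∀ i (r : R), algebraMap R F r ∈ V i}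
  (a b : S₁ →+* R) (φa φb : F₁ →+* F)
  (U : Fin 2 → ValuationSubring F₁) (hU : ∀ k (r : S₁), algebraMap S₁ F₁ r ∈ U k)
  (hφa : ∀ r : S₁, φa (algebraMap S₁ F₁ r) = algebraMap R F (a r))
  (hφb : ∀ r : S₁, φb (algebraMap S₁ F₁ r) = algebraMap R F (b r))
  (hA : ∀ i, (V i).comap φa = U (tA i)) (hB : ∀ i, (V i).comap φb = U (tB i))

include hφa hA hφb hB in
/-- **Dispatch of the closed points of the chart of level `q² M₀`** to the two per-point theorems
of `D/ChartRoots`: a prime `𝔫 ∋ π` lies on exactly one component, or on all three. -/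
theorem dispatch {π : O} {E : ℕ} (H : ChartHyp V hV π E)
    (𝔫 : Ideal R) [h𝔫 : 𝔫.IsPrime] (hπ : algebraMap O R π ∈ 𝔫)
    (hTa : TripleOver U hU V hV a 𝔫) (hTb : TripleOver U hU V hV b 𝔫) :
    (∃ i₀, centre (V i₀) (hV i₀) ≤ 𝔫 ∧ ∀ j, j ≠ i₀ → ¬ centre (V j) (hV j) ≤ 𝔫) ∨
      ∀ i, centre (V i) (hV i) ≤ 𝔫 := by
  have key := classify a b φa φb U hU V hV hφa hφb hA hB (algebraMap O R π)
    (hsat_of_chartHyp H) 𝔫 hπ hTa hTb
  have conv : ∀ i, vCentre (V i) (hV i) = centre (V i) (hV i) :=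
    fun i => vCentre_eq_centre' (V i) (hV i)
  have one : ∀ i₀, OnlyOne V hV i₀ 𝔫 →
      ∃ i₀, centre (V i₀) (hV i₀) ≤ 𝔫 ∧ ∀ j, j ≠ i₀ → ¬ centre (V j) (hV j) ≤ 𝔫 := by
    intro i₀ h
    refine ⟨i₀, (conv i₀) ▸ h.1, fun j hj => ?_⟩
    rw [← conv j]
    exact h.2 j hj
  rcases key with h | h | h | h
  · exact Or.inl (one 0 h)
  · exact Or.inl (one 1 h)
  · exact Or.inl (one 2 h)
  · exact Or.inr fun i => (conv i) ▸ h i

include hφa hA in
/-- in the `Triple` case `𝔫` lies over a crossing point of level `q M₀` along `α` -/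
theorem crossing_a_of_forall {𝔫 : Ideal R} (h : ∀ i, centre (V i) (hV i) ≤ 𝔫) :
    ∀ k, centre (U k) (hU k) ≤ 𝔫.comap a := by
  have conv : ∀ i, vCentre (V i) (hV i) = centre (V i) (hV i) :=
    fun i => vCentre_eq_centre' (V i) (hV i)
  have ht : Triple V hV 𝔫 := fun i => (conv i).symm ▸ h i
  have := crossing_a_of_triple a φa U hU V hV hφa hA ht
  intro k
  have hk := this k
  have e : vCentre (U k) (hU k) = centre (U k) (hU k) := by
    ext r
    rw [mem_vCentre_iff, mem_centre]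
  rw [← e]
  exact hk

include hφb hB in
/-- in the `Triple` case `𝔫` lies over a crossing point of level `q M₀` along `β` -/
theorem crossing_b_of_forall {𝔫 : Ideal R} (h : ∀ i, centre (V i) (hV i) ≤ 𝔫) :
    ∀ k, centre (U k) (hU k) ≤ 𝔫.comap b := by
  have conv : ∀ i, vCentre (V i) (hV i) = centre (V i) (hV i) :=
    fun i => vCentre_eq_centre' (V i) (hV i)
  have ht : Triple V hV 𝔫 := fun i => (conv i).symm ▸ h i
  have := crossing_b_of_triple b φb U hU V hV hφb hB ht
  intro k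
  have hk := this k
  have e : vCentre (U k) (hU k) = centre (U k) (hU k) := by
    ext r
    rw [mem_vCentre_iff, mem_centre]
  rw [← e]
  exact hk

end Three

end Fermat.Agent.S36.Points.ClassifyChart
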