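/-
S36, block [PTS] (helper11), file 4 = [PTS-I]: **the classification of the closed points of the
finite chart of level `q² M₀`, concretely** — the ONE application of `Points/ClassifyChart.dispatch`
on `Rfin K (M₀ q) O → Rfin K (M₀ q²) O` with the three valuations of `S36/V/ThreeVal`.

Setting of `V/ThreeVal`: `sv : SecondVal K M0 q O`, `T : ThreeVal K M0 q O sv`;
`U = ![V10, V01] = ![gaussVS K (M0 q) O, sv.V]`, `V = fam3 … = ![V20, V11, V02]`,
`a b = alphaR / betaR K (M0 q) q O`, `φa φb = a2 / b2 K M0 q`.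

* `hU2`, `hV3` : the charts lie in the valuation rings;
* `hA`, `hB` : the contraction table `(V i).comap α₂ = U (tA i)`, `(V i).comap β₂ = U (tB i)`;
* `hclass_fin` : **every closed point `𝔫 ∋ π` of `Rfin K (M0 q q) O` lies on exactly one component
  or on all three** — verbatim the hypothesis `hclass` of `Descent/SpineRoots.localRoots_both` —
  from the [R2] input in the shape of `R2/TripleHom.le_of_comap_le` along `α` and along `β`;
* `hclass_fin_of_tripleHom` : the same with the [R2] input given as `TripleHomData` at every crossing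
  point of level `q M₀` (along `α`: `V01 ← V02`; along `β`: `V10 ← V20`);
* `crossing_alpha_of_triple`, `crossing_beta_of_triple` : a triple point lies over crossing points;
* `isMaximal_comap` : contractions of closed points along an integral chart map are closed points.
-/
import Mathlib
import Fermat.Agent.S36.Points.ClassifyChart
import Fermat.Agent.S36.V.ThreeVal
import Fermat.Agent.S36.C.ThreeValCover
import Fermat.Agent.S36.R2.TripleHom
import Fermat.Agent.P3G.LevelIntegrality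
import Fermat.Agent.N4.FibreCharts

set_option autoImplicit false
set_option linter.unusedSectionVars false
set_option linter.unusedVariables false
set_option linter.style.haveILetI false

open ModularCurve Fermat.Agent.S28.Gauss Fermat.Agent.N4.Chart Fermat.Agent.N4.Setting
  Fermat.Agent.N4.FibreEmbedding Fermat.Agent.N4F.E.GaussDVR Fermat.Agent.N4F.E.DegreeLevelRaise
  Fermat.Agent.P3G.SecondValuation Fermat.Agent.P3G.LevelIntegrality
  Fermat.Agent.S36.V.ThreeVal Fermat.Agent.S36.C.ThreeValCover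
  Fermat.Agent.S36.Points.Classify Fermat.Agent.S36.Points.ClassifyChart
  Fermat.Agent.S36.Local.LocalRoot Fermat.Agent.S36.D.ChartRoots
  Fermat.Agent.S36.R2.TripleHom

noncomputable section

namespace Fermat.Agent.S36.Points.ClassifyInst

variable (K : Type) [Field K] [CharZero K] (M0 q : ℕ) [NeZero M0] [hq : Fact q.Prime]
  (O : Subring K) [IsDiscreteValuationRing ↥O] [IsFractionRing ↥O K]
  (sv : SecondVal K M0 q O)

/-- A chart `chartAlg O F {s}` lies in every valuation subring containing `O` and `s`. -/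
theorem chartAlg_le_vs {O' F : Type*} [CommRing O'] [Field F] [Algebra O' F]
    (V : ValuationSubring F) (hO : ∀ a : O', algebraMap O' F a ∈ V) {s : F} (hs : s ∈ V) {x : F}
    (hx : x ∈ chartAlg O' F {s}) : x ∈ V := by
  rw [mem_chartAlg_iff] at hx
  let Vs : Subalgebra O' F :=
    { V.toSubring.toSubsemiring with
      algebraMap_mem' := hO }
  have hadj : Algebra.adjoin O' ({s} : Set F) ≤ Vs :=
    Algebra.adjoin_le (Set.singleton_subset_iff.mpr hs)
  let φ : ↥(Algebra.adjoin O' ({s} : Set F)) →+* ↥V :=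
    { toFun := fun a => ⟨a, hadj a.2⟩
      map_one' := rfl
      map_mul' := fun _ _ => rfl
      map_zero' := rfl
      map_add' := fun _ _ => rfl }
  have hxi : IsIntegral ↥V x := hx.map_of_comp_eq φ (RingHom.id F) (by ext a; rfl)
  obtain ⟨y, hy⟩ := IsIntegrallyClosed.algebraMap_eq_of_integral hxi
  rw [← hy]
  exact y.2

/-- The two valuations `(V10, V01)` of level `q M₀`. -/
abbrev U2 : Fin 2 → ValuationSubring (FF K (M0 * q)) := ![gaussVS K (M0 * q) O, sv.V]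

/-- The finite chart of level `q M₀` lies in `V10` and in `V01`. -/
theorem hU2 (k : Fin 2) (r : ↥(Rfin K (M0 * q) O)) :
    algebraMap ↥(Rfin K (M0 * q) O) (FF K (M0 * q)) r ∈ U2 K M0 q O sv k := by
  revert k
  rw [Fin.forall_fin_two]
  refine ⟨?_, ?_⟩
  · exact chartAlg_le_gaussSubalgebra K (M0 * q) O
      (Set.singleton_subset_iff.mpr (jF_mem_gaussSubalgebra K (M0 * q) O)) r.2
  · refine chartAlg_le_vs sv.V (fun a => ?_) ?_ r.2
    · have hmem : algebraMap ↥O (FF K M0) a ∈ gaussSubalgebra K M0 O :=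
        (gaussSubalgebra K M0 O).algebraMap_mem a
      have h := sv.alpha_mem _ hmem
      have h4 : alphaF K M0 q (algebraMap ↥O (FF K M0) a) =
          algebraMap ↥O (FF K (M0 * q)) a := by
        rw [IsScalarTower.algebraMap_apply ↥O K (FF K M0), AlgHom.commutes]
        rfl
      rwa [h4] at h
    · rw [← alphaF_jF]
      exact sv.alpha_mem _ (jF_mem_gaussSubalgebra K M0 O)

variable {K M0 q O sv}
variable (T : ThreeVal K M0 q O sv)

/-- The contraction table along `α₂`. -/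
theorem hA (i : Fin 3) :
    (fam3 K M0 q O T.V11 T.V02 i).comap (a2 K M0 q) = U2 K M0 q O sv (tA i) := by
  revert i
  rw [Fin.forall_fin_succ, Fin.forall_fin_succ, Fin.forall_fin_one]
  refine ⟨?_, ?_, ?_⟩
  · exact Fermat.Agent.S36.V.Transport.comap_alpha_V20 K O M0 q
  · exact T.comap_alpha_V11
  · exact T.comap_alpha_V02

/-- The contraction table along `β₂`. -/
theorem hB (i : Fin 3) :
    (fam3 K M0 q O T.V11 T.V02 i).comap (b2 K M0 q) = U2 K M0 q O sv (tB i) := by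
  revert i
  rw [Fin.forall_fin_succ, Fin.forall_fin_succ, Fin.forall_fin_one]
  refine ⟨?_, ?_, ?_⟩
  · exact Fermat.Agent.S36.V.Transport.comap_beta_V20 K O M0 q
  · exact T.comap_beta_V11
  · exact T.comap_beta_V02

/-- `α₂` is compatible with `alphaR`. -/
theorem hφa (r : ↥(Rfin K (M0 * q) O)) :
    a2 K M0 q (algebraMap ↥(Rfin K (M0 * q) O) (FF K (M0 * q)) r) =
      algebraMap ↥(Rfin K (M0 * q * q) O) (FF K (M0 * q * q)) (alphaR K (M0 * q) q O r) := rfl

/-- `β₂` is compatible with `betaR`. -/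
theorem hφb (r : ↥(Rfin K (M0 * q) O)) :
    b2 K M0 q (algebraMap ↥(Rfin K (M0 * q) O) (FF K (M0 * q)) r) =
      algebraMap ↥(Rfin K (M0 * q * q) O) (FF K (M0 * q * q)) (betaR K (M0 * q) q O r) := rfl

section Main

variable [IsNoetherianRing ↥(Rfin K (M0 * q * q) O)]
  [IsFractionRing ↥(Rfin K (M0 * q * q) O) (FF K (M0 * q * q))]
  {hVp : ∀ i (r : ↥(Rfin K (M0 * q * q) O)),
    algebraMap ↥(Rfin K (M0 * q * q) O) (FF K (M0 * q * q)) r ∈ fam3 K M0 q O T.V11 T.V02 i}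
  {π : ↥O} {E : ℕ}

/-- **The classification of the closed points of the finite chart of level `q² M₀`**, with the
[R2] input in the shape of `R2/TripleHom.le_of_comap_le` (`hle := le_rfl`). -/
theorem hclass_fin (Hp : ChartHyp (fam3 K M0 q O T.V11 T.V02) hVp π E)
    (hα : ∀ (𝔫 : Ideal ↥(Rfin K (M0 * q * q) O)) [𝔫.IsPrime], 𝔫.IsMaximal →
      algebraMap ↥O ↥(Rfin K (M0 * q * q) O) π ∈ 𝔫 →
      (∀ k, centre (U2 K M0 q O sv k) (hU2 K M0 q O sv k) ≤
        𝔫.comap (alphaR K (M0 * q) q O : ↥(Rfin K (M0 * q) O) →+* ↥(Rfin K (M0 * q * q) O))) →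
      ∀ (P : Ideal ↥(Rfin K (M0 * q * q) O)) [P.IsPrime],
        P.comap (alphaR K (M0 * q) q O : ↥(Rfin K (M0 * q) O) →+* ↥(Rfin K (M0 * q * q) O)) ≤
          𝔫.comap (alphaR K (M0 * q) q O : ↥(Rfin K (M0 * q) O) →+* ↥(Rfin K (M0 * q * q) O)) →
        P ≤ 𝔫)
    (hβ : ∀ (𝔫 : Ideal ↥(Rfin K (M0 * q * q) O)) [𝔫.IsPrime], 𝔫.IsMaximal →
      algebraMap ↥O ↥(Rfin K (M0 * q * q) O) π ∈ 𝔫 →
      (∀ k, centre (U2 K M0 q O sv k) (hU2 K M0 q O sv k) ≤
        𝔫.comap (betaR K (M0 * q) q O : ↥(Rfin K (M0 * q) O) →+* ↥(Rfin K (M0 * q * q) O))) →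
      ∀ (P : Ideal ↥(Rfin K (M0 * q * q) O)) [P.IsPrime],
        P.comap (betaR K (M0 * q) q O : ↥(Rfin K (M0 * q) O) →+* ↥(Rfin K (M0 * q * q) O)) ≤
          𝔫.comap (betaR K (M0 * q) q O : ↥(Rfin K (M0 * q) O) →+* ↥(Rfin K (M0 * q * q) O)) →
        P ≤ 𝔫) :
    ∀ (𝔫 : Ideal ↥(Rfin K (M0 * q * q) O)) [𝔫.IsPrime], 𝔫.IsMaximal →
      algebraMap ↥O ↥(Rfin K (M0 * q * q) O) π ∈ 𝔫 →
      (∃ i₀, centre (fam3 K M0 q O T.V11 T.V02 i₀) (hVp i₀) ≤ 𝔫 ∧
          ∀ j, j ≠ i₀ → ¬ centre (fam3 K M0 q O T.V11 T.V02 j) (hVp j) ≤ 𝔫) ∨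
        ∀ i, centre (fam3 K M0 q O T.V11 T.V02 i) (hVp i) ≤ 𝔫 := by
  intro 𝔫 h𝔫 hmax hπ
  have conv : ∀ k, Fermat.Agent.P3G.Krull.vCentre (U2 K M0 q O sv k) (hU2 K M0 q O sv k) =
      centre (U2 K M0 q O sv k) (hU2 K M0 q O sv k) := fun k => by
    ext r
    rw [Fermat.Agent.P3G.Krull.mem_vCentre_iff, mem_centre]
  refine dispatch (alphaR K (M0 * q) q O : ↥(Rfin K (M0 * q) O) →+* ↥(Rfin K (M0 * q * q) O))
    (betaR K (M0 * q) q O : ↥(Rfin K (M0 * q) O) →+* ↥(Rfin K (M0 * q * q) O))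
    (a2 K M0 q) (b2 K M0 q) (U2 K M0 q O sv) (hU2 K M0 q O sv) (hφa) (hφb) (hA T) (hB T) Hp 𝔫 hπ
    ?_ ?_
  · refine tripleOver_a_of_forall_prime _ (a2 K M0 q) (U2 K M0 q O sv) (hU2 K M0 q O sv) _ hVp
      hφa (hA T) 𝔫 fun hc I hI hle => ?_
    haveI := hI
    exact hα 𝔫 hmax hπ (fun k => (conv k) ▸ hc k) I hle
  · refine tripleOver_b_of_forall_prime _ (b2 K M0 q) (U2 K M0 q O sv) (hU2 K M0 q O sv) _ hVp
      hφb (hB T) 𝔫 fun hc I hI hle => ?_
    haveI := hI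
    exact hβ 𝔫 hmax hπ (fun k => (conv k) ▸ hc k) I hle

/-- At a triple point the contraction along `α` is a crossing point of level `q M₀`. -/
theorem crossing_alpha_of_triple {𝔫 : Ideal ↥(Rfin K (M0 * q * q) O)}
    (h : ∀ i, centre (fam3 K M0 q O T.V11 T.V02 i) (hVp i) ≤ 𝔫) :
    ∀ k, centre (U2 K M0 q O sv k) (hU2 K M0 q O sv k) ≤
      𝔫.comap (alphaR K (M0 * q) q O : ↥(Rfin K (M0 * q) O) →+* ↥(Rfin K (M0 * q * q) O)) :=
  crossing_a_of_forall _ (a2 K M0 q) (U2 K M0 q O sv) (hU2 K M0 q O sv) hφa (hA T) h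

/-- At a triple point the contraction along `β` is a crossing point of level `q M₀`. -/
theorem crossing_beta_of_triple {𝔫 : Ideal ↥(Rfin K (M0 * q * q) O)}
    (h : ∀ i, centre (fam3 K M0 q O T.V11 T.V02 i) (hVp i) ≤ 𝔫) :
    ∀ k, centre (U2 K M0 q O sv k) (hU2 K M0 q O sv k) ≤
      𝔫.comap (betaR K (M0 * q) q O : ↥(Rfin K (M0 * q) O) →+* ↥(Rfin K (M0 * q * q) O)) :=
  crossing_b_of_forall _ (b2 K M0 q) (U2 K M0 q O sv) (hU2 K M0 q O sv) hφb (hB T) h

/-- **The classification with the [R2] input given as `TripleHomData`** at every crossing point of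
level `q M₀`: along `α` with the purely inseparable branch `V01 ← V02`, along `β` with the purely
inseparable branch `V10 ← V20` (helper22's `R2/TripleHom`, applied twice). -/
theorem hclass_fin_of_tripleHom
    [IsNoetherianRing ↥(Rfin K (M0 * q) O)]
    [IsFractionRing ↥(Rfin K (M0 * q) O) (FF K (M0 * q))]
    (Hp : ChartHyp (fam3 K M0 q O T.V11 T.V02) hVp π E)
    (hmα : ChartMap
      (alphaR K (M0 * q) q O : ↥(Rfin K (M0 * q) O) →+* ↥(Rfin K (M0 * q * q) O)) (a2 K M0 q))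
    (hmβ : ChartMap
      (betaR K (M0 * q) q O : ↥(Rfin K (M0 * q) O) →+* ↥(Rfin K (M0 * q * q) O)) (b2 K M0 q))
    {κa κb : Type*} [Field κa] [Field κb] [ExpChar κa q] [ExpChar κb q]
    (hdα : ∀ (𝔫 : Ideal ↥(Rfin K (M0 * q) O)) [𝔫.IsMaximal],
      (∀ k, centre (U2 K M0 q O sv k) (hU2 K M0 q O sv k) ≤ 𝔫) →
      ∃ (u u' ϖ : ↥(Rfin K (M0 * q) O)) (ev : ↥T.V02 →+* κa) (D0 : Subring κa),
        IsDedekindDomain ↥D0 ∧
        TripleHomData ↥(Rfin K (M0 * q * q) O) (a2 K M0 q) 𝔫 sv.V T.V02 u u' ϖ q ev D0)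
    (hdβ : ∀ (𝔫 : Ideal ↥(Rfin K (M0 * q) O)) [𝔫.IsMaximal],
      (∀ k, centre (U2 K M0 q O sv k) (hU2 K M0 q O sv k) ≤ 𝔫) →
      ∃ (u u' ϖ : ↥(Rfin K (M0 * q) O)) (ev : ↥(gaussVS K (M0 * q * q) O) →+* κb)
        (D0 : Subring κb), IsDedekindDomain ↥D0 ∧
        TripleHomData ↥(Rfin K (M0 * q * q) O) (b2 K M0 q) 𝔫 (gaussVS K (M0 * q) O)
          (gaussVS K (M0 * q * q) O) u u' ϖ q ev D0) :
    ∀ (𝔫 : Ideal ↥(Rfin K (M0 * q * q) O)) [𝔫.IsPrime], 𝔫.IsMaximal →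
      algebraMap ↥O ↥(Rfin K (M0 * q * q) O) π ∈ 𝔫 →
      (∃ i₀, centre (fam3 K M0 q O T.V11 T.V02 i₀) (hVp i₀) ≤ 𝔫 ∧
          ∀ j, j ≠ i₀ → ¬ centre (fam3 K M0 q O T.V11 T.V02 j) (hVp j) ≤ 𝔫) ∨
        ∀ i, centre (fam3 K M0 q O T.V11 T.V02 i) (hVp i) ≤ 𝔫 := by
  refine hclass_fin T Hp (fun 𝔫 _ hmax hπ hc P _ hP => ?_) (fun 𝔫 _ hmax hπ hc P _ hP => ?_)
  · haveI := hmax
    haveI : (𝔫.comap
        (alphaR K (M0 * q) q O : ↥(Rfin K (M0 * q) O) →+* ↥(Rfin K (M0 * q * q) O))).IsMaximal :=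
      Ideal.isMaximal_comap_of_isIntegral_of_isMaximal' _ hmα.integral 𝔫
    obtain ⟨u, u', ϖ, ev, D0, hD, hd⟩ := hdα _ hc
    haveI := hD
    exact le_of_comap_le hmα hd 𝔫 le_rfl P hP
  · haveI := hmax
    haveI : (𝔫.comap
        (betaR K (M0 * q) q O : ↥(Rfin K (M0 * q) O) →+* ↥(Rfin K (M0 * q * q) O))).IsMaximal :=
      Ideal.isMaximal_comap_of_isIntegral_of_isMaximal' _ hmβ.integral 𝔫
    obtain ⟨u, u', ϖ, ev, D0, hD, hd⟩ := hdβ _ hc
    haveI := hD
    exact le_of_comap_le hmβ hd 𝔫 le_rfl P hP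

end Main

/-- Contractions of closed points along an integral ring map are closed points. -/
theorem isMaximal_comap {R₁ R₂ : Type*} [CommRing R₁] [CommRing R₂] (a : R₁ →+* R₂)
    (ha : a.IsIntegral) (𝔫 : Ideal R₂) (h𝔫 : 𝔫.IsMaximal) : (𝔫.comap a).IsMaximal :=
  haveI := h𝔫
  Ideal.isMaximal_comap_of_isIntegral_of_isMaximal' a ha 𝔫

end Fermat.Agent.S36.Points.ClassifyInst
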