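/-
S36, block [PTS] (helper11), file 5: **`hclass` on the finite chart of level `q² M₀` with the [R2]
input discharged by `R2/TripleFinal`** (helper22).

`hclass_top` : for `T : ThreeVal K M0 q O sv`, the two `TripleGlue.InsepData` packages (along `α₂`:
`V01 ← V02` with the place `T.ev02`; along `β₂`: `V10 ← V20` with a place `θ₂` of the Gauss
valuation) and a regular crossing (`TripleGlue.CrossingHyp`, the output of block [R1]) at every
crossing point of level `q M₀`, every closed point `𝔫 ∋ π` of `Rfin K (M0 q q) O` lies on exactly one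
component or on all three (= the hypothesis `hclass` of `Descent/SpinePoints.hpt_of_blocks`).
-/
import Mathlib
import Fermat.Agent.S36.Points.ClassifyInst
import Fermat.Agent.S36.R2.TripleFinal
import Fermat.Agent.S36.V.CountAlong
import Fermat.Agent.S36.R2.TripleR1
import Fermat.Agent.S36.R1.Unconditional
import Fermat.Agent.P3G.SecondValBridge

set_option autoImplicit false
set_option linter.unusedSectionVars false
set_option linter.unusedVariables false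
set_option linter.style.haveILetI false

open ModularCurve Fermat.Agent.S28.Gauss Fermat.Agent.N4.Chart Fermat.Agent.N4.Setting
  Fermat.Agent.N4.FibreEmbedding Fermat.Agent.N4F.E.GaussDVR Fermat.Agent.N4F.E.DegreeLevelRaise
  Fermat.Agent.P3G.SecondValuation Fermat.Agent.P3G.LevelIntegrality
  Fermat.Agent.S36.V.ThreeVal Fermat.Agent.S36.C.ThreeValCover
  Fermat.Agent.S36.Points.Classify Fermat.Agent.S36.Points.ClassifyChart
  Fermat.Agent.S36.Points.ClassifyInst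
  Fermat.Agent.S36.Local.LocalRoot Fermat.Agent.S36.D.ChartRoots
  Fermat.Agent.S36.R2.TripleHom Fermat.Agent.S36.R2.TripleGlue Fermat.Agent.S36.R2.ChartMaps

noncomputable section

namespace Fermat.Agent.S36.Points.ClassifyTop

variable {K : Type} [Field K] [CharZero K] {M0 q : ℕ} [NeZero M0] [hq : Fact q.Prime]
  {O : Subring K} [IsDiscreteValuationRing ↥O] [IsFractionRing ↥O K]
  [CharP (IsLocalRing.ResidueField ↥O) q]
  {sv : SecondVal K M0 q O} (T : ThreeVal K M0 q O sv)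

/-- **The classification of the closed points of `Rfin K (M0 q q) O`**, [R2] input discharged. -/
theorem hclass_top
    (hN : IsUnit ((M0 : ℕ) : ↥O))
    (hprime : (fibreIdeal K M0 O (Rfin K M0 O)).IsPrime)
    (hsmooth : IsDedekindDomain (↥(Rfin K M0 O) ⧸ fibreIdeal K M0 O (Rfin K M0 O)))
    (hA2 : ∀ x : ↥(gaussSubalgebra K M0 O),
      theta K M0 O x ∈ modularFunctionFieldFullC (IsLocalRing.ResidueField ↥O) M0)
    {θ₂ : ↥(gaussVS K (M0 * q * q) O) →+* LaurentSeries (IsLocalRing.ResidueField ↥O)}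
    (hIα : InsepData K M0 q O (alphaF K (M0 * q) q) sv.V T.V02 T.ev02)
    (hIβ : InsepData K M0 q O (betaF K (M0 * q) q) (gaussVS K (M0 * q) O)
      (gaussVS K (M0 * q * q) O) θ₂)
    {ϖ : ↥O} (hϖ : Irreducible ϖ)
    (hcr : ∀ (𝔫 : Ideal ↥(Rfin K (M0 * q) O)) [𝔫.IsMaximal],
      (∀ k, centre (U2 K M0 q O sv k) (hU2 K M0 q O sv k) ≤ 𝔫) →
      ∃ u v : ↥(Rfin K (M0 * q) O), CrossingHyp 𝔫 (gaussVS K (M0 * q) O) sv.V u v)
    {hVp : ∀ i (r : ↥(Rfin K (M0 * q * q) O)),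
      algebraMap ↥(Rfin K (M0 * q * q) O) (FF K (M0 * q * q)) r ∈ fam3 K M0 q O T.V11 T.V02 i}
    {π : ↥O} {E : ℕ} (Hp : ChartHyp (fam3 K M0 q O T.V11 T.V02) hVp π E) :
    ∀ (𝔫 : Ideal ↥(Rfin K (M0 * q * q) O)) [𝔫.IsPrime], 𝔫.IsMaximal →
      algebraMap ↥O ↥(Rfin K (M0 * q * q) O) π ∈ 𝔫 →
      (∃ i₀, centre (fam3 K M0 q O T.V11 T.V02 i₀) (hVp i₀) ≤ 𝔫 ∧
          ∀ j, j ≠ i₀ → ¬ centre (fam3 K M0 q O T.V11 T.V02 j) (hVp j) ≤ 𝔫) ∨
        ∀ i, centre (fam3 K M0 q O T.V11 T.V02 i) (hVp i) ≤ 𝔫 := by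
  haveI := isNoetherianRing_Rfin K (M0 * q) O
  haveI := isFractionRing_Rfin K (M0 * q) O
  haveI := isNoetherianRing_Rfin K (M0 * q * q) O
  haveI := isFractionRing_Rfin K (M0 * q * q) O
  have hmα := chartMap_alphaR K (M0 * q) q O
  have hmβ := chartMap_betaR K (M0 * q) q O
  refine hclass_fin T Hp (fun 𝔫 _ hmax hπ hc P _ hP => ?_) (fun 𝔫 _ hmax hπ hc P _ hP => ?_)
  · haveI := hmax
    haveI : (𝔫.comap
        (alphaR K (M0 * q) q O : ↥(Rfin K (M0 * q) O) →+* ↥(Rfin K (M0 * q * q) O))).IsMaximal :=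
      Ideal.isMaximal_comap_of_isIntegral_of_isMaximal' _ hmα.integral 𝔫
    obtain ⟨u, v, hcr'⟩ := hcr _ hc
    exact Fermat.Agent.S36.R2.TripleFinal.le_of_comap_le K M0 q O hN hprime hsmooth hA2 hmα hIα
      hcr' hϖ (Fermat.Agent.S36.V.CountAlong.secondVal_unif_mem_nonunits sv hϖ) 𝔫 le_rfl
      P hP
  · haveI := hmax
    haveI : (𝔫.comap
        (betaR K (M0 * q) q O : ↥(Rfin K (M0 * q) O) →+* ↥(Rfin K (M0 * q * q) O))).IsMaximal :=
      Ideal.isMaximal_comap_of_isIntegral_of_isMaximal' _ hmβ.integral 𝔫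
    obtain ⟨u, v, hcr'⟩ := hcr _ hc
    exact Fermat.Agent.S36.R2.TripleFinal.le_of_comap_le K M0 q O hN hprime hsmooth hA2 hmβ hIβ
      hcr'.symm hϖ (Fermat.Agent.S36.V.CountAlong.algebraMap_unif_mem_nonunits K (M0 * q) O hϖ)
      𝔫 le_rfl P hP

/-- **Block [R1] at every crossing point of level `q M₀`**, in the shape `hcr` of `hclass_top`:
`Unconditional.regular_fin` (helper5) through `TripleR1.exists_crossingHyp` (helper22). -/
theorem hcr_top [PerfectRing (IsLocalRing.ResidueField ↥O) q]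
    (hN : IsUnit ((M0 : ℕ) : ↥O)) (ι : K →+* ℂ) (hqM0 : ¬ q ∣ M0)
    (hprime : (fibreIdeal K M0 O (Rfin K M0 O)).IsPrime)
    (hsmooth : IsDedekindDomain (↥(Rfin K M0 O) ⧸ fibreIdeal K M0 O (Rfin K M0 O)))
    (hA2 : ∀ x : ↥(gaussSubalgebra K M0 O),
      theta K M0 O x ∈ modularFunctionFieldFullC (IsLocalRing.ResidueField ↥O) M0)
    (sv : SecondVal K M0 q O) {ϖ : ↥O} (hϖ : Irreducible ϖ)
    (hunr : Associated (((q : ℕ) : ↥O)) ϖ)
    (hodd : q ≠ 2 → 2 * 2 ∣ M0) (heven : q = 2 → 9 ∣ M0) :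
    ∀ (𝔫 : Ideal ↥(Rfin K (M0 * q) O)) [𝔫.IsMaximal],
      (∀ k, centre (U2 K M0 q O sv k) (hU2 K M0 q O sv k) ≤ 𝔫) →
      ∃ u v : ↥(Rfin K (M0 * q) O), CrossingHyp 𝔫 (gaussVS K (M0 * q) O) sv.V u v := by
  intro 𝔫 _ hc
  have hk1 : RingHom.ker (Fermat.Agent.P3G.RbarFin.thetaFin K (M0 * q) O) ≤ 𝔫 := fun r hr =>
    hc 0 (mem_centre.2
      ((Fermat.Agent.S36.R1.CrossingRegular.mem_nonunits_gaussVS_iff_thetaFin K M0 q O r).2 hr))
  have hk2 : RingHom.ker (Fermat.Agent.P3G.TwoComponentsFinal.theta2S K M0 q O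
      (Fermat.Agent.P3G.SecondValBridge.toTwo sv)) ≤ 𝔫 := fun r hr =>
    hc 1 (mem_centre.2
      ((Fermat.Agent.S36.R1.CrossingRegular.mem_nonunits_secondVal_iff_theta2S K M0 q O
        (Fermat.Agent.P3G.SecondValBridge.toTwo sv) r).2 hr))
  exact Fermat.Agent.S36.R2.TripleR1.exists_crossingHyp K M0 q O
    (Fermat.Agent.P3G.SecondValBridge.toTwo sv) 𝔫 hk1 hk2
    (Fermat.Agent.S36.R1.Unconditional.regular_fin K M0 q O hN ι hqM0 hprime hsmooth hA2
      (Fermat.Agent.P3G.SecondValBridge.toTwo sv) hϖ hunr hodd heven 𝔫 hk1 hk2)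

/-- **`hclass` on the finite chart of level `q² M₀`, [R1] and [R2] discharged**: the only inputs
left are the `Descent/LevelFacts` package at the base level, `T`, the chart hypotheses `Hp` and the
two `InsepData` packages (fields of `T` / of the Gauss valuation). -/
theorem hclass_top' [PerfectRing (IsLocalRing.ResidueField ↥O) q]
    (hN : IsUnit ((M0 : ℕ) : ↥O)) (ι : K →+* ℂ) (hqM0 : ¬ q ∣ M0)
    (hprime : (fibreIdeal K M0 O (Rfin K M0 O)).IsPrime)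
    (hsmooth : IsDedekindDomain (↥(Rfin K M0 O) ⧸ fibreIdeal K M0 O (Rfin K M0 O)))
    (hA2 : ∀ x : ↥(gaussSubalgebra K M0 O),
      theta K M0 O x ∈ modularFunctionFieldFullC (IsLocalRing.ResidueField ↥O) M0)
    {θ₂ : ↥(gaussVS K (M0 * q * q) O) →+* LaurentSeries (IsLocalRing.ResidueField ↥O)}
    (hIα : InsepData K M0 q O (alphaF K (M0 * q) q) sv.V T.V02 T.ev02)
    (hIβ : InsepData K M0 q O (betaF K (M0 * q) q) (gaussVS K (M0 * q) O)
      (gaussVS K (M0 * q * q) O) θ₂)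
    {ϖ : ↥O} (hϖ : Irreducible ϖ) (hunr : Associated (((q : ℕ) : ↥O)) ϖ)
    (hodd : q ≠ 2 → 2 * 2 ∣ M0) (heven : q = 2 → 9 ∣ M0)
    {hVp : ∀ i (r : ↥(Rfin K (M0 * q * q) O)),
      algebraMap ↥(Rfin K (M0 * q * q) O) (FF K (M0 * q * q)) r ∈ fam3 K M0 q O T.V11 T.V02 i}
    {π : ↥O} {E : ℕ} (Hp : ChartHyp (fam3 K M0 q O T.V11 T.V02) hVp π E) :
    ∀ (𝔫 : Ideal ↥(Rfin K (M0 * q * q) O)) [𝔫.IsPrime], 𝔫.IsMaximal →
      algebraMap ↥O ↥(Rfin K (M0 * q * q) O) π ∈ 𝔫 →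
      (∃ i₀, centre (fam3 K M0 q O T.V11 T.V02 i₀) (hVp i₀) ≤ 𝔫 ∧
          ∀ j, j ≠ i₀ → ¬ centre (fam3 K M0 q O T.V11 T.V02 j) (hVp j) ≤ 𝔫) ∨
        ∀ i, centre (fam3 K M0 q O T.V11 T.V02 i) (hVp i) ≤ 𝔫 :=
  hclass_top T hN hprime hsmooth hA2 hIα hIβ hϖ
    (hcr_top hN ι hqM0 hprime hsmooth hA2 sv hϖ hunr hodd heven) Hp

end Fermat.Agent.S36.Points.ClassifyTop
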