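/-
S36, block [PTS] (helper11), file 6: **(R-a) at the triple points of the finite chart of level
`q² M₀`** in the shape `hUFD3` of `Descent/SpinePoints.hpt_of_blocks`: at a closed point `𝔫` of
`Rfin K (M0 q q) O` through which all three components pass, the contraction `𝔫.comap alphaR` is a
crossing point of level `q M₀` (`ClassifyInst.crossing_alpha_of_triple`), block [R1] gives a regular
crossing there (`ClassifyTop.hcr_top`), and `R2/TripleFinal.ufd` (helper22) gives the factoriality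
of `locAt 𝔫`.
-/
import Mathlib
import Fermat.Agent.S36.Points.ClassifyTop

set_option autoImplicit false
set_option linter.unusedSectionVars false
set_option linter.unusedVariables false
set_option linter.style.haveILetI false

open ModularCurve Fermat.Agent.S28.Gauss Fermat.Agent.N4.Chart Fermat.Agent.N4.Setting
  Fermat.Agent.N4.FibreEmbedding Fermat.Agent.N4F.E.GaussDVR Fermat.Agent.N4F.E.DegreeLevelRaise
  Fermat.Agent.P3G.SecondValuation Fermat.Agent.P3G.LevelIntegrality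
  Fermat.Agent.S36.V.ThreeVal Fermat.Agent.S36.C.ThreeValCover
  Fermat.Agent.S36.Points.ClassifyInst Fermat.Agent.S36.Points.ClassifyTop
  Fermat.Agent.S36.Local.LocalRoot Fermat.Agent.S36.D.ChartRoots
  Fermat.Agent.N4.Cover.Globalize
  Fermat.Agent.S36.R2.TripleHom Fermat.Agent.S36.R2.TripleGlue Fermat.Agent.S36.R2.ChartMaps

noncomputable section

namespace Fermat.Agent.S36.Points.TripleUfdTop

variable {K : Type} [Field K] [CharZero K] {M0 q : ℕ} [NeZero M0] [hq : Fact q.Prime]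
  {O : Subring K} [IsDiscreteValuationRing ↥O] [IsFractionRing ↥O K]
  [CharP (IsLocalRing.ResidueField ↥O) q]
  {sv : SecondVal K M0 q O} (T : ThreeVal K M0 q O sv)

/-- **`hUFD3` with [R1] as a hypothesis.** -/
theorem hUFD3_of_crossing
    [IsNoetherianRing ↥(Rfin K (M0 * q * q) O)]
    [IsFractionRing ↥(Rfin K (M0 * q * q) O) (FF K (M0 * q * q))]
    (hN : IsUnit ((M0 : ℕ) : ↥O))
    (hprime : (fibreIdeal K M0 O (Rfin K M0 O)).IsPrime)
    (hsmooth : IsDedekindDomain (↥(Rfin K M0 O) ⧸ fibreIdeal K M0 O (Rfin K M0 O)))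
    (hA2 : ∀ x : ↥(gaussSubalgebra K M0 O),
      theta K M0 O x ∈ modularFunctionFieldFullC (IsLocalRing.ResidueField ↥O) M0)
    (hIα : InsepData K M0 q O (alphaF K (M0 * q) q) sv.V T.V02 T.ev02)
    {ϖ : ↥O} (hϖ : Irreducible ϖ)
    (hcr : ∀ (𝔫 : Ideal ↥(Rfin K (M0 * q) O)) [𝔫.IsMaximal],
      (∀ k, centre (U2 K M0 q O sv k) (hU2 K M0 q O sv k) ≤ 𝔫) →
      ∃ u v : ↥(Rfin K (M0 * q) O), CrossingHyp 𝔫 (gaussVS K (M0 * q) O) sv.V u v)
    {hVp : ∀ i (r : ↥(Rfin K (M0 * q * q) O)),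
      algebraMap ↥(Rfin K (M0 * q * q) O) (FF K (M0 * q * q)) r ∈ fam3 K M0 q O T.V11 T.V02 i}
    {P : Ideal ↥(Rfin K (M0 * q * q) O) → Prop} :
    ∀ (𝔫 : Ideal ↥(Rfin K (M0 * q * q) O)) [𝔫.IsPrime], 𝔫.IsMaximal → P 𝔫 →
      (∀ i, centre (fam3 K M0 q O T.V11 T.V02 i) (hVp i) ≤ 𝔫) →
      UniqueFactorizationMonoid (locAt (F := FF K (M0 * q * q)) 𝔫) := by
  intro 𝔫 _ hmax _ ht
  haveI := isNoetherianRing_Rfin K (M0 * q) O
  haveI := isFractionRing_Rfin K (M0 * q) O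
  have hmα := chartMap_alphaR K (M0 * q) q O
  haveI := hmax
  haveI : (𝔫.comap
      (alphaR K (M0 * q) q O : ↥(Rfin K (M0 * q) O) →+* ↥(Rfin K (M0 * q * q) O))).IsMaximal :=
    Ideal.isMaximal_comap_of_isIntegral_of_isMaximal' _ hmα.integral 𝔫
  obtain ⟨u, v, hcr'⟩ := hcr _ (crossing_alpha_of_triple T ht)
  exact Fermat.Agent.S36.R2.TripleFinal.ufd K M0 q O hN hprime hsmooth hA2 hmα hIα hcr' hϖ
    (Fermat.Agent.S36.V.CountAlong.secondVal_unif_mem_nonunits sv hϖ) 𝔫 le_rfl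

/-- **`hUFD3` of `SpinePoints.hpt_of_blocks` on `Rfin K (M0 q q) O`, [R1] and [R2] discharged.** -/
theorem hUFD3_top [PerfectRing (IsLocalRing.ResidueField ↥O) q]
    [IsNoetherianRing ↥(Rfin K (M0 * q * q) O)]
    [IsFractionRing ↥(Rfin K (M0 * q * q) O) (FF K (M0 * q * q))]
    (hN : IsUnit ((M0 : ℕ) : ↥O)) (ι : K →+* ℂ) (hqM0 : ¬ q ∣ M0)
    (hprime : (fibreIdeal K M0 O (Rfin K M0 O)).IsPrime)
    (hsmooth : IsDedekindDomain (↥(Rfin K M0 O) ⧸ fibreIdeal K M0 O (Rfin K M0 O)))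
    (hA2 : ∀ x : ↥(gaussSubalgebra K M0 O),
      theta K M0 O x ∈ modularFunctionFieldFullC (IsLocalRing.ResidueField ↥O) M0)
    (hIα : InsepData K M0 q O (alphaF K (M0 * q) q) sv.V T.V02 T.ev02)
    {ϖ : ↥O} (hϖ : Irreducible ϖ) (hunr : Associated (((q : ℕ) : ↥O)) ϖ)
    (hodd : q ≠ 2 → 2 * 2 ∣ M0) (heven : q = 2 → 9 ∣ M0)
    {hVp : ∀ i (r : ↥(Rfin K (M0 * q * q) O)),
      algebraMap ↥(Rfin K (M0 * q * q) O) (FF K (M0 * q * q)) r ∈ fam3 K M0 q O T.V11 T.V02 i}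
    {P : Ideal ↥(Rfin K (M0 * q * q) O) → Prop} :
    ∀ (𝔫 : Ideal ↥(Rfin K (M0 * q * q) O)) [𝔫.IsPrime], 𝔫.IsMaximal → P 𝔫 →
      (∀ i, centre (fam3 K M0 q O T.V11 T.V02 i) (hVp i) ≤ 𝔫) →
      UniqueFactorizationMonoid (locAt (F := FF K (M0 * q * q)) 𝔫) :=
  hUFD3_of_crossing T hN hprime hsmooth hA2 hIα hϖ
    (hcr_top hN ι hqM0 hprime hsmooth hA2 sv hϖ hunr hodd heven)

end Fermat.Agent.S36.Points.TripleUfdTop
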