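/-
S36, block [PTS] (helper11), file 3: **the `β`-side [R2] input of the classification by symmetry.**

`Points/Classify.classify` needs, at a closed point `𝔪` of level `q² M₀`,
`TripleOver … a 𝔪` (over an `α`-crossing all three components pass through `𝔪`; block [R2]) and
`TripleOver … b 𝔪` (the same along `β`).  The second one is the transport of the first one by the
Fricke involutions `w₁` (level `q M₀`) and `w₂` (level `q² M₀`):

  `β ∘ w₁ = w₂ ∘ α`,  `w₁` permutes `{V10, V01}`,  `w₂` permutes `{V20, V11, V02}`.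

So block [R2] has to be instantiated ALONG `α` ONLY.  Pure commutative algebra (Mathlib + P3G/Krull
`vCentre` + `Points/Classify`).
-/
import Mathlib
import Fermat.Agent.S36.Points.Classify

set_option autoImplicit false
set_option linter.unusedSectionVars false
set_option linter.unusedVariables false

namespace Fermat.Agent.S36.Points.ClassifySymm

open Fermat.Agent.P3G.Krull Fermat.Agent.S36.Points.Classify

variable {S₁ S₂ F₁ F₂ : Type*} [CommRing S₁] [CommRing S₂] [Field F₁] [Field F₂]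
  [Algebra S₁ F₁] [Algebra S₂ F₂]
  (a b : S₁ →+* S₂)
  (U : Fin 2 → ValuationSubring F₁) (hU : ∀ k (r : S₁), algebraMap S₁ F₁ r ∈ U k)
  (V : Fin 3 → ValuationSubring F₂) (hV : ∀ i (s : S₂), algebraMap S₂ F₂ s ∈ V i)

/-- **`TripleOver` along `β` from `TripleOver` along `α` at the Fricke twin point** (centre form).
`w₁ : S₁ → S₁`, `w₂ w₂' : S₂ → S₂` ring homs with `w₂ ∘ w₂' = id`, `β ∘ w₁ = w₂ ∘ α`; `w₁` permutes
the centres of the `U k` (by `σ₁`), `w₂'` those of the `V i` (by `σ₂`). -/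
theorem tripleOver_b_of_symm_centre (w₁ : S₁ →+* S₁) (w₂ w₂' : S₂ →+* S₂)
    (hw₂ : ∀ s, w₂ (w₂' s) = s) (hb : ∀ r, b (w₁ r) = w₂ (a r))
    (σ₁ : Fin 2 → Fin 2) (hσ₁ : Function.Surjective σ₁)
    (h₁ : ∀ k, (vCentre (U k) (hU k)).comap w₁ = vCentre (U (σ₁ k)) (hU (σ₁ k)))
    (σ₂ : Fin 3 → Fin 3) (hσ₂ : Function.Surjective σ₂)
    (h₂ : ∀ i, (vCentre (V i) (hV i)).comap w₂' = vCentre (V (σ₂ i)) (hV (σ₂ i)))
    (𝔪 : Ideal S₂) (hTa : TripleOver U hU V hV a (𝔪.comap w₂)) :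
    TripleOver U hU V hV b 𝔪 := by
  intro hc
  -- the `α`-image of the twin point is a crossing point
  have hcomap : (𝔪.comap w₂).comap a = (𝔪.comap b).comap w₁ := by
    ext r
    simp only [Ideal.mem_comap]
    rw [hb]
  have hc' : Crossing U hU ((𝔪.comap w₂).comap a) := by
    intro k'
    obtain ⟨k, rfl⟩ := hσ₁ k'
    rw [hcomap, ← h₁ k]
    exact Ideal.comap_mono (hc k)
  have ht := hTa hc'
  intro i'
  obtain ⟨i, rfl⟩ := hσ₂ i'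
  rw [← h₂ i]
  have hm : (𝔪.comap w₂).comap w₂' = 𝔪 := by
    ext s
    simp only [Ideal.mem_comap]
    rw [hw₂]
  calc (vCentre (V i) (hV i)).comap w₂' ≤ (𝔪.comap w₂).comap w₂' := Ideal.comap_mono (ht i)
    _ = 𝔪 := hm

/-- **`TripleOver` along `β` from `TripleOver` along `α` at the Fricke twin point**
(valuation-subring form): `ψ₁ : F₁ → F₁`, `ψ₂' : F₂ → F₂` extend `w₁`, `w₂'`, and
`(U k).comap ψ₁ = U (σ₁ k)`, `(V i).comap ψ₂' = V (σ₂ i)`. -/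
theorem tripleOver_b_of_symm (w₁ : S₁ →+* S₁) (w₂ w₂' : S₂ →+* S₂)
    (hw₂ : ∀ s, w₂ (w₂' s) = s) (hb : ∀ r, b (w₁ r) = w₂ (a r))
    (ψ₁ : F₁ →+* F₁) (hψ₁ : ∀ r : S₁, ψ₁ (algebraMap S₁ F₁ r) = algebraMap S₁ F₁ (w₁ r))
    (ψ₂' : F₂ →+* F₂) (hψ₂' : ∀ s : S₂, ψ₂' (algebraMap S₂ F₂ s) = algebraMap S₂ F₂ (w₂' s))
    (σ₁ : Fin 2 → Fin 2) (hσ₁ : Function.Surjective σ₁)
    (h₁ : ∀ k, (U k).comap ψ₁ = U (σ₁ k))
    (σ₂ : Fin 3 → Fin 3) (hσ₂ : Function.Surjective σ₂)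
    (h₂ : ∀ i, (V i).comap ψ₂' = V (σ₂ i))
    (𝔪 : Ideal S₂) (hTa : TripleOver U hU V hV a (𝔪.comap w₂)) :
    TripleOver U hU V hV b 𝔪 :=
  tripleOver_b_of_symm_centre a b U hU V hV w₁ w₂ w₂' hw₂ hb σ₁ hσ₁
    (fun k => vCentre_comap w₁ ψ₁ hψ₁ (U (σ₁ k)) (hU (σ₁ k)) (U k) (hU k) (h₁ k)) σ₂ hσ₂
    (fun i => vCentre_comap w₂' ψ₂' hψ₂' (V (σ₂ i)) (hV (σ₂ i)) (V i) (hV i) (h₂ i)) 𝔪 hTa

/-- the swap of `Fin 2` and the reversal of `Fin 3` are surjective -/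
theorem swap2_surjective : Function.Surjective (![1, 0] : Fin 2 → Fin 2) := by
  intro k
  fin_cases k
  · exact ⟨1, rfl⟩
  · exact ⟨0, rfl⟩

theorem rev3_surjective : Function.Surjective (![2, 1, 0] : Fin 3 → Fin 3) := by
  intro i
  fin_cases i
  · exact ⟨2, rfl⟩
  · exact ⟨1, rfl⟩
  · exact ⟨0, rfl⟩

/-- **The form used at level `q² M₀`**: `w₁` swaps `V10 ↔ V01`, `w₂ = w₂'` is an involution
swapping `V20 ↔ V02` and fixing `V11`. -/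
theorem tripleOver_b_of_fricke (w₁ : S₁ →+* S₁) (w₂ : S₂ →+* S₂)
    (hw₂ : ∀ s, w₂ (w₂ s) = s) (hb : ∀ r, b (w₁ r) = w₂ (a r))
    (ψ₁ : F₁ →+* F₁) (hψ₁ : ∀ r : S₁, ψ₁ (algebraMap S₁ F₁ r) = algebraMap S₁ F₁ (w₁ r))
    (ψ₂ : F₂ →+* F₂) (hψ₂ : ∀ s : S₂, ψ₂ (algebraMap S₂ F₂ s) = algebraMap S₂ F₂ (w₂ s))
    (h10 : (U 0).comap ψ₁ = U 1) (h01 : (U 1).comap ψ₁ = U 0)
    (h20 : (V 0).comap ψ₂ = V 2) (h11 : (V 1).comap ψ₂ = V 1) (h02 : (V 2).comap ψ₂ = V 0)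
    (𝔪 : Ideal S₂) (hTa : TripleOver U hU V hV a (𝔪.comap w₂)) :
    TripleOver U hU V hV b 𝔪 := by
  refine tripleOver_b_of_symm a b U hU V hV w₁ w₂ w₂ hw₂ hb ψ₁ hψ₁ ψ₂ hψ₂
    ![1, 0] swap2_surjective ?_ ![2, 1, 0] rev3_surjective ?_ 𝔪 hTa
  · rw [Fin.forall_fin_two]
    exact ⟨h10, h01⟩
  · intro i
    fin_cases i
    · exact h20
    · exact h11
    · exact h02

end Fermat.Agent.S36.Points.ClassifySymm
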